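/-
MAZUR / node [MZ-C'], backup cell [C2] (helper24): THE TWO CUSPS OF `X₀(p)`.  Prefix `mzc2_`.

* `mzc2_inf N`  : the cusp `∞` of `X₀(N)`: the `X`-adic place of `F̄_N ⊆ ℚ̄((X))`
                  (`mzc2_inf_ord : ord_∞ f = ord_X f`), for EVERY `N`;
* `mzc2_W p`    : the Atkin–Lehner involution of `F̄_p` (`p` prime; the identity otherwise):
                  `W ∘ W = id`, `W x = x(X^p)` for `x ∈ ℚ̄(j)`;
* `mzc2_zero p` : the cusp `0` of `X₀(p)`: the place `∞ ∘ W` (`mzc2_zero_ord : ord_0 f = ord_X (W f)`);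
* `mzc2_C0 p : mzt_Cusps p`;
* the poles of `j`: `mzc2_poles_j` (every pole of `j` is one of the two cusps), `mzc2_ord_inf_j`
  (`= -1`), `mzc2_ord_zero_j` (`= -p`); `mzc2_zero_ne_inf`.
-/
import Mathlib
import Fermat.Agent.MZ.Top.Seams
import Fermat.Agent.MZ.B.Seams
import Fermat.Agent.SS.Model.CuspsFinal
import Fermat.Agent.JT3.Inst.Defs

set_option autoImplicit false
set_option synthInstance.maxHeartbeats 400000
set_option maxHeartbeats 1000000
set_option linter.unusedSectionVars false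
set_option linter.style.haveILetI false

noncomputable section

open ModularCurve AlgebraicCurve IntermediateField
open Fermat.Agent.S24 Fermat.Agent.JT3 Fermat.Agent.SS

namespace Fermat.Agent.MZ

local notation "Qb" => AlgebraicClosure ℚ

/-! ### generic: the two poles of `t` on a tower with an Atkin–Lehner involution -/

section Abs

variable {L : Type*} [Field L] [CharZero L]

/-- `A = L(t) ≤ B ⊆ L((X))`, `t` with a simple pole at `X = 0`, `W` an automorphism of `B / L` which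
is `X ↦ X^q` on `A`, `[B : A] = q + 1`, `c0` the `X`-adic place of `B`: every pole of `t` on `B` is
`c0` or `c0 ∘ W`, and `ord_{c0 ∘ W} t = -q`. -/
theorem mzc2_abs (A B : IntermediateField L (LaurentSeries L))
    (q : ℕ) [NeZero q] (hq : 2 ≤ q) (W : B ≃ₐ[L] B)
    (hWq : ∀ x : B, (x : LaurentSeries L) ∈ A →
      ((W x : B) : LaurentSeries L) = qExpand L q (x : LaurentSeries L))
    (hdeg : IntermediateField.relfinrank A B = q + 1)
    (t : LaurentSeries L) (htA : A = L⟮t⟯) (htB : t ∈ B) (hord : t.order = -1)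
    (c0 : Place L B) (hc0 : ∀ f : B, c0.ord f = (f : LaurentSeries L).order) :
    (∀ c' : Place L B, c'.ord (⟨t, htB⟩ : B) < 0 → c' = c0 ∨ c' = ssm_cf_comap W c0) ∧
      (ssm_cf_comap W c0).ord (⟨t, htB⟩ : B) = -(q : ℤ) := by
  subst htA
  have hc1 : c0.ord (⟨t, htB⟩ : B) = -1 := by rw [hc0]; exact hord
  have hWt : ((W ⟨t, htB⟩ : B) : LaurentSeries L) = qExpand L q t :=
    hWq ⟨t, htB⟩ (mem_adjoin_simple_self L t)
  have hcq : c0.ord (W ⟨t, htB⟩) = -(q : ℤ) := by
    rw [hc0, hWt]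
    exact ssm_cf_order_qExpand L q hord
  have htr : Transcendental L (⟨t, htB⟩ : B) :=
    ssm_cf_transcendental_of_ord c0 (by rw [hc1]; norm_num)
  have hfr : Module.finrank L⟮(⟨t, htB⟩ : B)⟯ B = q + 1 := by
    rw [ssm_cf_finrank_adjoin]
    exact hdeg
  haveI : FiniteDimensional L⟮(⟨t, htB⟩ : B)⟯ B :=
    Module.finite_of_finrank_pos (by rw [hfr]; omega)
  refine ⟨fun c' hc' => ssm_cf_abs_place (⟨t, htB⟩ : B) htr q hq hfr.le W c0 hc1 hcq c' hc', ?_⟩
  rw [ssm_cf_comap_ord, hcq]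

end Abs

/-! ### the cusp `∞` -/

/-- `j ∈ F̄_N`, every `N`. -/
theorem mzc2_j_mem (N : ℕ) : jqModC Qb ∈ modularFunctionFieldBar N := by
  rw [mzb_qi_j_coeffEmb]
  refine coeffEmb_mem_laurentBaseChange Qb ?_
  have h := jqd_mem_full N (one_dvd N)
  rwa [qExpand_one_apply] at h

theorem mzc2_exists_inf (N : ℕ) :
    ∃ c0 : Place Qb (modularFunctionFieldBar N),
      ∀ f : modularFunctionFieldBar N, c0.ord f = (f : LaurentSeries Qb).order :=
  ssm_cf_exists_xplace (modularFunctionFieldBar N) (mzc2_j_mem N) (ssm_cf_order_j Qb)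

/-- **the cusp `∞`** of `X₀(N)`: the `X`-adic place of `F̄_N`. -/
def mzc2_inf (N : ℕ) : Place Qb (modularFunctionFieldBar N) := (mzc2_exists_inf N).choose

theorem mzc2_inf_ord (N : ℕ) (f : modularFunctionFieldBar N) :
    (mzc2_inf N).ord f = (f : LaurentSeries Qb).order :=
  (mzc2_exists_inf N).choose_spec f

/-! ### the Atkin–Lehner involution of `F̄_p` -/

/-- the Atkin–Lehner involution of `F̄_p`, `p` prime (transported from `ssm_al_W ℚ̄ 1 p`). -/
theorem mzc2_exists_W (p : ℕ) [NeZero p] (hp : p.Prime) :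
    ∃ W : modularFunctionFieldBar p ≃ₐ[Qb] modularFunctionFieldBar p,
      (∀ x, W (W x) = x) ∧
      (∀ x : modularFunctionFieldBar p,
        (x : LaurentSeries Qb) ∈ modularFunctionFieldFullC Qb 1 →
          ((W x : modularFunctionFieldBar p) : LaurentSeries Qb)
            = qExpand Qb p (x : LaurentSeries Qb)) ∧
      IntermediateField.relfinrank (modularFunctionFieldFullC Qb 1)
        (modularFunctionFieldBar p) = p + 1 := by
  have hp1 : ¬ p ∣ 1 := fun h => hp.one_lt.ne' (Nat.dvd_one.1 h)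
  have hE : modularFunctionFieldFullC Qb (1 * p) = modularFunctionFieldBar p := by
    rw [Nat.one_mul]
    exact lg_F_eq_bar p
  have key := ssm_cf_alHyp Qb 1 p hp hp1
  unfold ssm_cf_ALHyp at key
  generalize modularFunctionFieldBar p = E at hE ⊢
  subst hE
  exact key

/-- **the Atkin–Lehner involution** of `F̄_p` (the identity if `p` is not prime). -/
def mzc2_W (p : ℕ) : modularFunctionFieldBar p ≃ₐ[Qb] modularFunctionFieldBar p :=
  if hp : p.Prime then
    haveI : NeZero p := ⟨hp.ne_zero⟩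
    (mzc2_exists_W p hp).choose
  else AlgEquiv.refl

theorem mzc2_W_W (p : ℕ) (x : modularFunctionFieldBar p) : mzc2_W p (mzc2_W p x) = x := by
  unfold mzc2_W
  split_ifs with hp
  · haveI : NeZero p := ⟨hp.ne_zero⟩
    exact (mzc2_exists_W p hp).choose_spec.1 x
  · rfl

theorem mzc2_W_of_mem (p : ℕ) [NeZero p] (hp : p.Prime) (x : modularFunctionFieldBar p)
    (hx : (x : LaurentSeries Qb) ∈ modularFunctionFieldFullC Qb 1) :
    ((mzc2_W p x : modularFunctionFieldBar p) : LaurentSeries Qb)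
      = qExpand Qb p (x : LaurentSeries Qb) := by
  unfold mzc2_W
  rw [dif_pos hp]
  exact (mzc2_exists_W p hp).choose_spec.2.1 x hx

theorem mzc2_relfinrank (p : ℕ) [NeZero p] (hp : p.Prime) :
    IntermediateField.relfinrank (modularFunctionFieldFullC Qb 1)
      (modularFunctionFieldBar p) = p + 1 :=
  (mzc2_exists_W p hp).choose_spec.2.2

/-- `W j = j(X^p)`. -/
theorem mzc2_W_j (p : ℕ) [NeZero p] (hp : p.Prime) :
    ((mzc2_W p (mzb_jB p) : modularFunctionFieldBar p) : LaurentSeries Qb)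
      = qExpand Qb p (jqModC Qb) :=
  mzc2_W_of_mem p hp (mzb_jB p) (jqModC_mem_full Qb 1)

/-! ### the cusp `0` -/

/-- **the cusp `0`** of `X₀(p)`: the place `∞ ∘ W`. -/
def mzc2_zero (p : ℕ) : Place Qb (modularFunctionFieldBar p) :=
  ssm_cf_comap (mzc2_W p) (mzc2_inf p)

theorem mzc2_zero_ord (p : ℕ) (f : modularFunctionFieldBar p) :
    (mzc2_zero p).ord f = ((mzc2_W p f : modularFunctionFieldBar p) : LaurentSeries Qb).order := by
  rw [mzc2_zero, ssm_cf_comap_ord, mzc2_inf_ord]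

/-- **the two cusps** of `X₀(p)`. -/
def mzc2_C0 (p : ℕ) : mzt_Cusps p := ⟨mzc2_zero p, mzc2_inf p⟩

@[simp] theorem mzc2_C0_zero (p : ℕ) : (mzc2_C0 p).zero = mzc2_zero p := rfl

@[simp] theorem mzc2_C0_inf (p : ℕ) : (mzc2_C0 p).inf = mzc2_inf p := rfl

/-! ### the poles of `j` -/

theorem mzc2_ord_inf_j (p : ℕ) [NeZero p] : (mzc2_inf p).ord (mzb_jB p) = -1 := by
  rw [mzc2_inf_ord, mzb_coe_jB]
  exact ssm_cf_order_j Qb

theorem mzc2_ord_zero_j (p : ℕ) [NeZero p] (hp : p.Prime) :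
    (mzc2_zero p).ord (mzb_jB p) = -(p : ℤ) := by
  rw [mzc2_zero_ord, mzc2_W_j p hp]
  exact ssm_cf_order_qExpand Qb p (ssm_cf_order_j Qb)

/-- **every pole of `j` on `X₀(p)` is one of the two cusps.** -/
theorem mzc2_poles_j (p : ℕ) [NeZero p] (hp : p.Prime)
    (P : Place Qb (modularFunctionFieldBar p)) (hP : P.ord (mzb_jB p) < 0) :
    P = mzc2_inf p ∨ P = mzc2_zero p :=
  (mzc2_abs (modularFunctionFieldFullC Qb 1) (modularFunctionFieldBar p) p hp.two_le (mzc2_W p)
    (fun x hx => mzc2_W_of_mem p hp x hx) (mzc2_relfinrank p hp) (jqModC Qb) (ssm_cf_F1_eq Qb)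
    (mzb_j_mem p) (ssm_cf_order_j Qb) (mzc2_inf p) (mzc2_inf_ord p)).1 P hP

theorem mzc2_zero_ne_inf (p : ℕ) [NeZero p] (hp : p.Prime) : mzc2_zero p ≠ mzc2_inf p := by
  intro e
  have h1 := mzc2_ord_zero_j p hp
  rw [e, mzc2_ord_inf_j] at h1
  have : (p : ℤ) = 1 := by linarith
  exact hp.ne_one (by exact_mod_cast this)

end Fermat.Agent.MZ

end
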