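/-
MAZUR / node [MZ-C'] backup cell [C2]: GALOIS STABILITY OF THE CUSPS (helper28).

The arithmetic Galois action on `ℚ̄(X₀(N)) = laurentBaseChange ℚ̄ F₀ ⊆ ℚ̄((q))` is coefficientwise.
* `mzc2_g_xplace`  : a place whose order function is the `q`-order (the cusp `∞`) is fixed by
  `G_ℚ`                                                       [field `gal_inf` of `mzc_sp_Spec`];
* `mzc2_g_coeffEmb`: an element whose `q`-expansion has rational coefficients is fixed by `G_ℚ`;
  `mzc2_g_jBar`    : `σ • j = j`                               [field `gal_j` of `mzc_sp_Spec`];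
* `mzc2_g_comap`   : if an automorphism `W` of the function field commutes with the Galois action,
  then `σ • (c ∘ W) = (σ • c) ∘ W`; in particular the cusp `0 = ∞ ∘ W` is fixed
  (`mzc2_g_comap_xplace`).
Prefix `mzc2_g_`.
-/
import Mathlib
import Fermat.Prelude.Def_ModularCurve_ArithmeticGalois
import Fermat.Agent.S24.Hurwitz.Places
import Fermat.Agent.S24.Bridge.Degree
import Fermat.Agent.JT3.Gateway.DescentField
import Fermat.Agent.SS.Model.Cusps

set_option autoImplicit false
set_option linter.unusedSectionVars false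

noncomputable section

open ModularCurve AlgebraicCurve HahnSeries
open Fermat.Agent.S24 Fermat.Agent.JT3 Fermat.Agent.SS

namespace Fermat.Agent.MZ

local notation "GQ" => (AlgebraicClosure ℚ ≃ₐ[ℚ] AlgebraicClosure ℚ)
local notation "Qb" => AlgebraicClosure ℚ

section General

variable {L : Type*} [Field L] [Algebra ℚ L] (F₀ : IntermediateField ℚ (LaurentSeries ℚ))

/-- the coefficientwise action preserves the `q`-order. -/
theorem mzc2_g_order_smul (σ : L ≃ₐ[ℚ] L) (f : laurentBaseChange L F₀) :
    ((arithmeticGalois F₀ σ • f : laurentBaseChange L F₀) : LaurentSeries L).order =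
      (f : LaurentSeries L).order := by
  rw [coe_arithmeticGalois_smul]
  exact gd_order_coeffMap (φ := (σ : L →+* L)) σ.injective _

/-- **the cusp `∞` is `G_ℚ`-fixed**: a place whose order function is the `q`-order is fixed by the
arithmetic Galois action. -/
theorem mzc2_g_xplace (c0 : Place L (laurentBaseChange L F₀))
    (h : ∀ f : laurentBaseChange L F₀, c0.ord f = (f : LaurentSeries L).order)
    (σ : L ≃ₐ[ℚ] L) : arithmeticGalois F₀ σ • c0 = c0 := by
  set g := arithmeticGalois F₀ σ with hg
  have hord : ∀ f : laurentBaseChange L F₀, (g • c0).ord f = c0.ord f := by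
    intro f
    have h1 := SemilinearAut.ord_smul g c0 (g⁻¹ • f)
    rw [smul_inv_smul] at h1
    rw [h1, h, h]
    have h2 := mzc2_g_order_smul F₀ σ (g⁻¹ • f)
    rw [← hg, smul_inv_smul] at h2
    exact h2.symm
  apply Place.ext
  ext f
  rcases eq_or_ne f 0 with rfl | hf
  · exact ⟨fun _ => zero_mem _, fun _ => zero_mem _⟩
  · rw [hw_mem_iff_ord_nonneg _ hf, hw_mem_iff_ord_nonneg _ hf, hord]

/-- an element whose `q`-expansion has rational coefficients is `G_ℚ`-fixed. -/
theorem mzc2_g_coeffEmb (σ : L ≃ₐ[ℚ] L) (f : laurentBaseChange L F₀) (x : LaurentSeries ℚ)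
    (hx : (f : LaurentSeries L) = coeffEmb L x) : arithmeticGalois F₀ σ • f = f := by
  apply Subtype.ext
  rw [coe_arithmeticGalois_smul, hx, coeffMap_coeffEmb]

/-- the Galois action commutes with `c ↦ c ∘ W` when `W` commutes with the Galois action. -/
theorem mzc2_g_comap (W : laurentBaseChange L F₀ ≃ₐ[L] laurentBaseChange L F₀)
    (σ : L ≃ₐ[ℚ] L)
    (hW : ∀ f : laurentBaseChange L F₀,
      arithmeticGalois F₀ σ • W f = W (arithmeticGalois F₀ σ • f))
    (c : Place L (laurentBaseChange L F₀)) :
    arithmeticGalois F₀ σ • ssm_cf_comap W c = ssm_cf_comap W (arithmeticGalois F₀ σ • c) := by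
  set g := arithmeticGalois F₀ σ with hg
  have hord : ∀ f : laurentBaseChange L F₀,
      (g • ssm_cf_comap W c).ord f = (ssm_cf_comap W (g • c)).ord f := by
    intro f
    have h1 := SemilinearAut.ord_smul g (ssm_cf_comap W c) (g⁻¹ • f)
    rw [smul_inv_smul] at h1
    rw [h1, ssm_cf_comap_ord, ssm_cf_comap_ord]
    have h2 := SemilinearAut.ord_smul g c (W (g⁻¹ • f))
    rw [hW, smul_inv_smul] at h2
    exact h2.symm
  apply Place.ext
  ext f
  rcases eq_or_ne f 0 with rfl | hf
  · exact ⟨fun _ => zero_mem _, fun _ => zero_mem _⟩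
  · rw [hw_mem_iff_ord_nonneg _ hf, hw_mem_iff_ord_nonneg _ hf, hord]

/-- **the cusp `0 = ∞ ∘ W` is `G_ℚ`-fixed** when `W` commutes with the Galois action. -/
theorem mzc2_g_comap_xplace (W : laurentBaseChange L F₀ ≃ₐ[L] laurentBaseChange L F₀)
    (c0 : Place L (laurentBaseChange L F₀))
    (h : ∀ f : laurentBaseChange L F₀, c0.ord f = (f : LaurentSeries L).order)
    (σ : L ≃ₐ[ℚ] L)
    (hW : ∀ f : laurentBaseChange L F₀,
      arithmeticGalois F₀ σ • W f = W (arithmeticGalois F₀ σ • f)) :
    arithmeticGalois F₀ σ • ssm_cf_comap W c0 = ssm_cf_comap W c0 := by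
  rw [mzc2_g_comap F₀ W σ hW, mzc2_g_xplace F₀ c0 h]

end General

/-- **`σ • j = j`**. -/
theorem mzc2_g_jBar (N : ℕ) [NeZero N] (σ : GQ) :
    arithmeticGalois (modularFunctionFieldFull N) σ • br_jBar N = br_jBar N :=
  mzc2_g_coeffEmb (modularFunctionFieldFull N) σ (br_jBar N) jq rfl

end Fermat.Agent.MZ

end
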