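/-
MAZUR project, backup cell **[C2]** (owner helper24), seat helper16.  Prefix `mzc2_oi_`.

THE ORDERS OF `j` AND OF THE MODULAR UNIT `U` AT THE `q`-ADIC PLACE, for ANY place `c0` of
`F̄_p = modularFunctionFieldBar p` whose order function is the `q`-order
(`hc0 : ∀ f, c0.ord f = (f : LaurentSeries ℚ̄).order`; such a place exists:
`mzc2_oi_exists_xplace`, from `ssm_cf_exists_xplace`):

* `mzc2_oi_ord_jB`  : `c0.ord (mzb_jB p) = -1`;
* `mzc2_oi_ord_UB`  : `c0.ord (mzb_UB p hU) = 1 - p`;
* `mzc2_oi_ord_jB'`, `mzc2_oi_ord_UB'` : the same for `mza_jB p`, `mza_UB p` ([A-PLACE] spelling);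
* `mzc2_oi_ord_qExpand_j` : the order of `j(q^p)` is `-p`;
* `mzc2_oi_smul` : such a place is fixed by `G_ℚ` (the coefficientwise action preserves the
  `q`-order), via `mzc2_oi_ext` (places with the same order function are equal).
-/
import Mathlib
import Fermat.Agent.MZ.B.Seams
import Fermat.Agent.MZ.A.Place.Seam
import Fermat.Agent.SS.Model.CuspsInst
import Fermat.Agent.JT3.Gateway.DescentField

set_option autoImplicit false
set_option linter.unusedSectionVars false

noncomputable section

open ModularCurve AlgebraicCurve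
open Fermat.Agent.S24 Fermat.Agent.JT3 Fermat.Agent.SS

namespace Fermat.Agent.MZ

local notation "GQ" => (AlgebraicClosure ℚ ≃ₐ[ℚ] AlgebraicClosure ℚ)
local notation "Qbar" => AlgebraicClosure ℚ

section General

variable {K F : Type*} [Field K] [Field F] [Algebra K F]

/-- places with the same order function are equal. -/
theorem mzc2_oi_ext {P P' : Place K F} (h : ∀ f : F, P.ord f = P'.ord f) : P = P' := by
  have key : ∀ {P P' : Place K F}, (∀ f : F, P.ord f = P'.ord f) →
      P.toValuationSubring ≤ P'.toValuationSubring := by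
    intro P P' h f hf
    rcases eq_or_ne f 0 with rfl | hf0
    · exact P'.toValuationSubring.zero_mem
    · rw [hw_mem_iff_ord_nonneg P' hf0, ← h]
      exact (hw_mem_iff_ord_nonneg P hf0).mp hf
  have h1 : P.toValuationSubring = P'.toValuationSubring :=
    le_antisymm (key h) (key fun f => (h f).symm)
  cases P; cases P'
  simp only [Place.mk.injEq]
  exact h1

end General

section Modular

set_option synthInstance.maxHeartbeats 400000
set_option maxHeartbeats 1000000

variable (p : ℕ) [NeZero p]

/-- the `q`-adic place of `F̄_p` exists. -/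
theorem mzc2_oi_exists_xplace :
    ∃ c0 : Place Qbar (modularFunctionFieldBar p),
      ∀ f : modularFunctionFieldBar p, c0.ord f = (f : LaurentSeries Qbar).order :=
  ssm_cf_exists_xplace (modularFunctionFieldBar p) (mzb_j_mem p) (ssm_cf_order_j Qbar)

variable {p}
variable {c0 : Place Qbar (modularFunctionFieldBar p)}
  (hc0 : ∀ f : modularFunctionFieldBar p, c0.ord f = (f : LaurentSeries Qbar).order)

include hc0

theorem mzc2_oi_ord_jB : c0.ord (mzb_jB p) = -1 := by
  rw [hc0, mzb_coe_jB]
  exact ssm_cf_order_j Qbar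

theorem mzc2_oi_ord_UB (hU : mzb_Umem p) : c0.ord (mzb_UB p hU) = 1 - (p : ℤ) := by
  rw [hc0, mzb_coe_UB, mzb_qi_U_coeffEmb, coeffEmb,
    gd_order_coeffMap (algebraMap ℚ Qbar).injective, order_modularUnitSeries]

theorem mzc2_oi_ord_jB' : c0.ord (mza_jB p) = -1 := by
  rw [← mza_pls_jB_eq]; exact mzc2_oi_ord_jB hc0

theorem mzc2_oi_ord_UB' : c0.ord (mza_UB p) = 1 - (p : ℤ) := by
  rw [← mza_pls_UB_eq p (mza_pls_Umem p)]; exact mzc2_oi_ord_UB hc0 _

/-- the `q`-adic place is fixed by `G_ℚ`. -/
theorem mzc2_oi_smul (σ : GQ) :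
    arithmeticGalois (modularFunctionFieldFull p) σ • c0 = c0 := by
  refine mzc2_oi_ext fun f => ?_
  set g := arithmeticGalois (modularFunctionFieldFull p) σ with hg
  have h1 : (g • c0).ord f = c0.ord (g⁻¹ • f) := by
    conv_lhs => rw [← smul_inv_smul g f]
    exact SemilinearAut.ord_smul g c0 _
  rw [h1, hc0, hc0, hg, ← map_inv, coe_arithmeticGalois_smul]
  exact gd_order_coeffMap (φ := ((σ⁻¹ : GQ) : Qbar →+* Qbar)) (σ⁻¹ : GQ).injective _

end Modular

end Fermat.Agent.MZ
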