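/-
MAZUR / node [MZ-C'] backup cell [C2] (helper5, prefix `mzc2_uo_`): THE MODULAR UNIT HAS NEITHER
ZERO NOR POLE OUTSIDE THE POLES OF `j`.

`U = Δ(q)/Δ(q^p) ∈ Q̄(X₀(p))` (`mzb_UB p hU`, helper16's vocabulary; `= mza_UB p`, helper27).
Both `Δ(τ)/Δ(pτ)` (`mza_plu_isWeakModFun`, helper3) and its inverse `Δ(pτ)/Δ(τ) = p⁻¹² u_p(τ)`
(S28's `tx_u`) are weakly holomorphic modular functions of level `Γ₀(p)`; the inverse has the
inverse `q`-expansion (existence `gb_exists_laurentQ` + uniqueness of Laurent expansions).  Hence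
`U` and `U⁻¹` are integral over `Q̄[j]` (helper23's `mzc_i_ord_eq_zero`) and

  `mzc2_uo_ord_eq_zero : 0 ≤ ord_P j → ord_P U = 0`   for every place `P` of `Q̄(X₀(p))`.
-/
import Mathlib
import Fermat.Agent.MZ.C.Integral
import Fermat.Agent.MZ.A.Place.Seam

set_option autoImplicit false
set_option linter.unusedSectionVars false

noncomputable section

open UpperHalfPlane ModularForm CongruenceSubgroup
open scoped MatrixGroups Manifold

namespace Fermat.Agent.MZ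

open Fermat.Agent.S24 Fermat.Agent.JT3 Fermat.Agent.S28 AlgebraicCurve ModularCurve
open Fermat.Agent.S23 (alphaN)
open Fermat.Agent.S24.Br

local notation "Qbar" => AlgebraicClosure ℚ

variable (p : ℕ) [NeZero p]

/-! ### the inverse of the analytic modular unit -/

/-- `(Δ(τ)/Δ(pτ))⁻¹ = p⁻¹² u_p(τ)`. -/
theorem mzc2_uo_Uan_inv_eq (τ : ℍ) : (mza_Uan p τ)⁻¹ = ((p : ℂ) ^ 12)⁻¹ * tx_u p τ := by
  rw [mza_plu_Uan_eq, mul_inv, inv_inv]

theorem mzc2_uo_Uan_ne_zero (τ : ℍ) : mza_Uan p τ ≠ 0 := by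
  unfold mza_Uan
  exact div_ne_zero (discriminant_ne_zero τ) (discriminant_ne_zero _)

/-- **the inverse modular unit `Δ(pτ)/Δ(τ)` is weakly holomorphic of level `Γ₀(p)`.** -/
theorem mzc2_uo_weak_inv : IsWeakModFun p (fun z => (mza_Uan p z)⁻¹) where
  mdiff := by
    have h1 : MDiff (tx_ufun p 1) := tx_mdiff_ufun p (dvd_refl p) 1
    have h2 : (fun z => (mza_Uan p z)⁻¹) = (fun _ => ((p : ℂ) ^ 12)⁻¹) * tx_ufun p 1 := by
      funext τ
      rw [mzc2_uo_Uan_inv_eq, Pi.mul_apply]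
      show _ = _ * tx_u p ((1 : SL(2, ℤ)) • τ)
      rw [one_smul]
    rw [h2]
    exact mdifferentiable_const.mul h1
  inv := fun γ hγ z => by
    rw [mzc2_uo_Uan_inv_eq, mzc2_uo_Uan_inv_eq, tx_u_smul_of_mem_Gamma0 γ hγ]
  growth := fun γ => by
    obtain ⟨m, hm⟩ := mza_plu_growth_of_fi_P p (tx_fi_P_ufun p (dvd_refl p) γ)
    refine ⟨m, ?_⟩
    have h2 : (qH ^ m * fun z => (mza_Uan p (γ • z))⁻¹)
        = (fun _ => ((p : ℂ) ^ 12)⁻¹) * (qH ^ m * tx_ufun p γ) := by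
      funext z
      simp only [Pi.mul_apply, Pi.pow_apply]
      rw [mzc2_uo_Uan_inv_eq]
      show _ = _ * (_ * tx_u p (γ • z))
      ring
    rw [h2]
    exact (Filter.const_boundedAtFilter atImInfty (((p : ℂ) ^ 12)⁻¹)).mul hm

/-! ### the `q`-expansion of the inverse -/

/-- a weakly holomorphic inverse of a function with a Laurent `q`-expansion has the inverse
expansion. -/
theorem mzc2_uo_laurentQ_inv_gen {N : ℕ} {g g' : ℍ → ℂ} {F : LaurentSeries ℂ}
    (hg : br_HasLaurentQ g F) (hg' : IsWeakModFun N g') (hgg' : ∀ z, g z * g' z = 1) :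
    br_HasLaurentQ g' F⁻¹ := by
  obtain ⟨H', hH'⟩ := gb_exists_laurentQ hg'
  have h1 : br_HasLaurentQ (g * g') (F * H') := hg.mul hH'
  have e : g * g' = fun _ => (1 : ℂ) := by
    funext z
    exact hgg' z
  rw [e] at h1
  have h2 : F * H' = HahnSeries.C (1 : ℂ) := h1.unique_right (br_HasLaurentQ.const 1)
  have h3 : F * H' = 1 := by rw [h2, map_one]
  have h4 : H' = F⁻¹ := eq_inv_of_mul_eq_one_right h3
  rwa [h4] at hH'

/-- the `q`-expansion of `Δ(pτ)/Δ(τ)` is the inverse of the series of `U`. -/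
theorem mzc2_uo_laurentQ_inv :
    br_HasLaurentQ (fun z => (mza_Uan p z)⁻¹)
      (coeffMap (br_iota : Qbar →+* ℂ)
        (((mza_UB p)⁻¹ : modularFunctionFieldBar p) : LaurentSeries Qbar)) := by
  have h := mzc2_uo_laurentQ_inv_gen (mza_UB_laurentQ p) (mzc2_uo_weak_inv p)
    (fun z => mul_inv_cancel₀ (mzc2_uo_Uan_ne_zero p z))
  have e : (((mza_UB p)⁻¹ : modularFunctionFieldBar p) : LaurentSeries Qbar)
      = ((mza_UB p : modularFunctionFieldBar p) : LaurentSeries Qbar)⁻¹ := rfl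
  rw [e, map_inv₀]
  exact h

/-! ### the order of `U` at the places where `j` is finite -/

/-- `U ≠ 0`. -/
theorem mzc2_uo_UB_ne_zero : mza_UB p ≠ 0 := by
  intro h
  have h1 := (mza_UB_laurentQ p).eq_zero_iff.mpr (by rw [h]; simp)
  exact mzc2_uo_Uan_ne_zero p UpperHalfPlane.I (congrFun h1 _)

/-- **`U` has neither zero nor pole outside the poles of `j`** (`mza_UB`, `br_jBar` spelling). -/
theorem mzc2_uo_ord_eq_zero_bar (P : Place Qbar (modularFunctionFieldBar p))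
    (hP : 0 ≤ P.ord (br_jBar p)) : P.ord (mza_UB p) = 0 :=
  mzc_i_ord_eq_zero (mza_UB p) (mza_UB p)⁻¹ (mul_inv_cancel₀ (mzc2_uo_UB_ne_zero p))
    (mza_Uan p) (fun z => (mza_Uan p z)⁻¹) (mza_pl_weak p) (mzc2_uo_weak_inv p)
    (mza_UB_laurentQ p) (mzc2_uo_laurentQ_inv p) P hP

/-- `mzb_jB p = br_jBar p`. -/
theorem mzc2_uo_jB_eq : mzb_jB p = br_jBar p := by
  rw [mza_pls_jB_eq, br_jBar_eq_barGenF]
  rfl

/-- **`U` has neither zero nor pole outside the poles of `j`**, in the vocabulary of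
`mzb_CD_stmt` (`MZ/B/Seams.lean`). -/
theorem mzc2_uo_ord_eq_zero (hU : mzb_Umem p) (P : Place Qbar (modularFunctionFieldBar p))
    (hP : 0 ≤ P.ord (mzb_jB p)) : P.ord (mzb_UB p hU) = 0 := by
  rw [mza_pls_UB_eq]
  rw [mzc2_uo_jB_eq] at hP
  exact mzc2_uo_ord_eq_zero_bar p P hP

/-- contrapositive: a zero or pole of `U` is a pole of `j`. -/
theorem mzc2_uo_pole_of_ord_ne_zero (hU : mzb_Umem p)
    (P : Place Qbar (modularFunctionFieldBar p)) (hP : P.ord (mzb_UB p hU) ≠ 0) :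
    P.ord (mzb_jB p) < 0 := by
  by_contra h
  exact hP (mzc2_uo_ord_eq_zero p hU P (not_lt.mp h))

end Fermat.Agent.MZ

end
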