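/-
MAZUR / node [MZ-C'], backup cell [C2] (helper24): THE CLOSING TERMS.  Prefix `mzc2_`.

For the cusps `mzc2_C0 p` of `MZ/C2/Defs.lean`:
* `mzc2_spec`  : the specification `mzc_sp_Spec p (mzc2_C0 p) j U` of `MZ/C/Spec.lean`
  [poles of `j`: `Defs.lean`; `ord_∞ U = 1 - p`: helper16's `OrdInf.lean`; `U` is a unit where `j`
  is finite: helper5's `UnitOrd.lean` (on helper23's `Integral.lean`); Galois: helper28's
  `Gal.lean`];
* **`mzc2_C : mzt_C_stmt mzc2_C0`**   = the seam `[MZ-C']` of `MZ/Top/Seams.lean`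
  [clause (ii): helper22's `mzc_h_C_ii`; clause (iv): helper13's `mzc_nz_closed`];
* **`mzc2_CD : mzb_CD_stmt mzc2_C0`** = the cusp data of `MZ/B/Seams.lean` consumed by `[MZ-B]`.
-/
import Mathlib
import Fermat.Agent.MZ.C2.Defs
import Fermat.Agent.MZ.C2.Gal
import Fermat.Agent.MZ.C2.OrdInf
import Fermat.Agent.MZ.C2.UnitOrd
import Fermat.Agent.MZ.C.Spec
import Fermat.Agent.MZ.C.HeckeAbs
import Fermat.Agent.MZ.C.NonZeroClosed

set_option autoImplicit false
set_option synthInstance.maxHeartbeats 400000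
set_option maxHeartbeats 1000000
set_option linter.unusedSectionVars false
set_option linter.style.haveILetI false

noncomputable section

open ModularCurve AlgebraicCurve
open Fermat.Agent.S24 Fermat.Agent.JT3 Fermat.Agent.SS

namespace Fermat.Agent.MZ

local notation "GQ" => (AlgebraicClosure ℚ ≃ₐ[ℚ] AlgebraicClosure ℚ)
local notation "Qb" => AlgebraicClosure ℚ

/-- **the specification of the cusps** `mzc2_C0 p`, `p` prime. -/
theorem mzc2_spec (p : ℕ) [NeZero p] (hp : p.Prime) :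
    mzc_sp_Spec p (mzc2_C0 p) (mzb_jB p) (mzb_UB p (mza_pls_Umem p)) where
  poles_j := fun P hP => mzc2_poles_j p hp P hP
  ord_inf_j := mzc2_ord_inf_j p
  ord_zero_j := mzc2_ord_zero_j p hp
  ord_inf_U := mzc2_oi_ord_UB (mzc2_inf_ord p) (mza_pls_Umem p)
  ord_U_fin := fun P hP => mzc2_uo_ord_eq_zero p (mza_pls_Umem p) P hP
  gal_inf := fun σ => mzc2_oi_smul (mzc2_inf_ord p) σ
  gal_j := fun σ => by
    rw [mzc2_uo_jB_eq]
    exact mzc2_g_jBar p σ

/-- **[MZ-C']**: the seam `mzt_C_stmt` for the cusps `mzc2_C0`. -/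
theorem mzc2_C : mzt_C_stmt mzc2_C0 :=
  mzc_sp_C_stmt mzc2_C0 (fun p => if h : p = 0 then 0 else haveI : NeZero p := ⟨h⟩; mzb_jB p)
    (fun p => if h : p = 0 then 0 else haveI : NeZero p := ⟨h⟩; mzb_UB p (mza_pls_Umem p))
    (fun p _ hp _ => by
      rw [dif_neg (NeZero.ne p), dif_neg (NeZero.ne p)]
      exact mzc2_spec p hp)
    (fun p _ hp C' h0 hinf hkill => mzc_h_C_ii p hp C' h0 hinf hkill)
    (fun p _ hp hp' v w hvw => mzc_nz_closed p hp hp' v w hvw)

/-- **the cusp data for [MZ-B]**. -/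
theorem mzc2_CD : mzb_CD_stmt mzc2_C0 := by
  intro p _ hp _
  have h := mzc2_spec p hp
  have hp1 : p ≠ 1 := hp.ne_one
  refine ⟨mza_pls_Umem p, fun P hP => h.mzc_sp_pole_U hp1 P hP, fun P hP => h.mzc_sp_zero_U P hP,
    h.poles_j, h.ord_inf_j, h.ord_inf_U, ?_, ?_⟩
  · rw [h.ord_zero_j]
    have : (0 : ℤ) < p := by exact_mod_cast hp.pos
    linarith
  · rw [h.mzc_sp_ord_zero_U hp1]
    have : (1 : ℤ) < p := by exact_mod_cast hp.one_lt
    linarith

end Fermat.Agent.MZ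

end
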